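import Fermat.Agent.LT.A2.H753.RegSpec

/-!
# Row LT, tower A2, leaf A2.03.1.3.7 `H753.ArchContC` (helper372)

OFF-MAIN.  Leaf `ArchContC` (R7) of the cut `LT/A2/H753/RegSpec.lean` (helper753, bytes frozen,
imported verbatim): the infinite part of the product family is continuous in the admissible
pair.

`archPart L g m ξ = ∏_u L.Finf u (infMat u g) (infMat u m) (infVec u ξ)` is a FINITE product;
each factor is `CpxAt.cont` (continuity on the locally admissible pairs) composed with the
continuous map `p ↦ ((infMat u p.1, infMat u p.2), infVec u ξ)`, which maps the admissible pairs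
into the locally admissible pairs by `DictC`.
-/

set_option autoImplicit false

open IsDedekindDomain NumberField AutomorphicForm MeasureTheory
open scoped MatrixGroups Topology

noncomputable section

namespace Fermat.Agent.LT.A2.H372

open Fermat.Agent.LT.H130 Fermat.Agent.LT.H556 Fermat.Agent.LT.A2 Fermat.Agent.LT.A2.WX467
open Fermat.Agent.LT.A2.H753

/-- The matrix at the infinite place `u` depends continuously on `g ∈ GL₂(𝔸_K)`. -/
theorem continuous_infMat372 {K : Type} [Field K] [NumberField K] (u : InfinitePlace K) :
    Continuous (fun g : A0.G K => infMat u g) := by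
  refine continuous_pi fun i => continuous_pi fun j => ?_
  have h1 : Continuous fun g : A0.G K => (g : Matrix (Fin 2) (Fin 2) (A0.Adl K)) :=
    Units.continuous_val
  have h2 : Continuous fun g : A0.G K => (g : Matrix (Fin 2) (Fin 2) (A0.Adl K)) i j :=
    (continuous_apply j).comp ((continuous_apply i).comp h1)
  exact (continuous_apply u).comp (continuous_fst.comp h2)

/-- **Leaf A2.03.1.3.7 (R7 ARCH-CONT).** -/
theorem archContC372 : ArchContC := by
  intro hDict K _ _ L hL ξ
  unfold archPart
  refine continuousOn_finsetProd _ fun u _ => ?_
  have hc := (hL.cpx u).cont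
  have hmap : ContinuousOn (fun p : A0.G K × A0.G K =>
      (((infMat u p.1, infMat u p.2), infVec u ξ) :
        (Matrix (Fin 2) (Fin 2) u.Completion × Matrix (Fin 2) (Fin 2) u.Completion) ×
          (u.Completion × u.Completion))) {p | Adm L.t L.n p.1 p.2} :=
    (((continuous_infMat372 u).comp continuous_fst).prodMk
      ((continuous_infMat372 u).comp continuous_snd)).prodMk continuous_const |>.continuousOn
  exact hc.comp hmap fun p hp => (hDict K L p.1 p.2 hp).2 u

end Fermat.Agent.LT.A2.H372

end
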